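/-
GATE-H / S19 node W-INST (helper24; helper32 4598 R1): the hypotheses (W1)–(W5) + `hfix` of
helper71's abstract N1 DESCENT (board 4582), for the frozen frame
`K := ℚ̄`, `G := G_ℚ`, `A | ℓ` a valuation subring, `I := I_A`, `D := D_A`,
`W := A ∩ ℚ̄^{I_A}` (`wRing A : Subring Qb`).

* `hfix_Qb`              : `(∀ σ : G_ℚ, σ a = a) → ∃ q : ℚ, algebraMap ℚ ℚ̄ q = a`;
* `wRing_W1`             : `algebraMap ℚ ℚ̄ q ∈ W ↔ q ∈ ratLocalizedAt ℓ`              [W ∩ ℚ = ℤ_(ℓ)]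
* `wRing_W2`, `wRing_W2'`: `W` is `I`-fixed; `a` `I`-fixed ⟹ `∃ c, ℓ^c * a ∈ W`       [K^I = W[1/ℓ]]
* `wRing_W3`             : `w ∈ W` not divisible by `ℓ` in `W` is a unit of `W`       [ℓ uniformiser]
* `wRing_W4`             : `D_A` preserves `W`
* `wRing_W5`             : `w ∈ W`, `σ w - w ∈ ℓ W` for all `σ ∈ D_A` ⟹ `w ∈ ℤ + ℓ W`  [(W/ℓ)^D = 𝔽_ℓ]
* `mem_nonunits_iff_dvd` : `W ∩ 𝔪_A = ℓ W`; `div_mem_wRing_of_mem_nonunits`.
-/
import Mathlib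
import Fermat.Agent.GL.Local.InertiaFieldBase
import Fermat.Agent.GP.Flat.DvrInst.Isometry
import Fermat.Agent.G35.Irr3.ResidueRat
import Fermat.Agent.S28.RatLocal

set_option autoImplicit false

open scoped Pointwise
open Fermat.Agent.Common_helper32 Fermat.Agent.GL.Local.InertiaField

namespace Fermat.Agent.GH.N1Inst

variable (A : ValuationSubring Qb)

/-- `W = A ∩ ℚ̄^{I_A}` as a subring of `ℚ̄`. -/
def wRing : Subring Qb where
  carrier := {x | x ∈ A ∧ ∀ σ ∈ A.inertiaSubgroupIn ℚ, σ x = x}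
  mul_mem' := by
    rintro x y ⟨hx, hx'⟩ ⟨hy, hy'⟩
    exact ⟨A.mul_mem _ _ hx hy, fun σ hσ => by rw [map_mul, hx' σ hσ, hy' σ hσ]⟩
  one_mem' := ⟨A.one_mem, fun σ _ => map_one σ⟩
  add_mem' := by
    rintro x y ⟨hx, hx'⟩ ⟨hy, hy'⟩
    exact ⟨A.add_mem _ _ hx hy, fun σ hσ => by rw [map_add, hx' σ hσ, hy' σ hσ]⟩
  zero_mem' := ⟨A.zero_mem, fun σ _ => map_zero σ⟩
  neg_mem' := by
    rintro x ⟨hx, hx'⟩
    exact ⟨A.neg_mem _ hx, fun σ hσ => by rw [map_neg, hx' σ hσ]⟩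

theorem mem_wRing_iff (x : Qb) :
    x ∈ wRing A ↔ x ∈ A ∧ ∀ σ ∈ A.inertiaSubgroupIn ℚ, σ x = x := Iff.rfl

theorem mem_of_mem_wRing {x : Qb} (hx : x ∈ wRing A) : x ∈ A := hx.1

/-- **(W2)** -/
theorem wRing_W2 {w : Qb} (hw : w ∈ wRing A) {σ : GQ} (hσ : σ ∈ A.inertiaSubgroupIn ℚ) :
    σ w = w := hw.2 σ hσ

theorem natCast_mem_wRing (n : ℕ) : (n : Qb) ∈ wRing A := natCast_mem _ n

theorem intCast_mem_wRing (n : ℤ) : (n : Qb) ∈ wRing A := intCast_mem _ n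

/-- **hfix**: the fixed field of `G_ℚ` in `ℚ̄` is `ℚ`. -/
theorem hfix_Qb (a : Qb) (h : ∀ σ : GQ, σ a = a) : ∃ q : ℚ, algebraMap ℚ Qb q = a :=
  (InfiniteGalois.mem_range_algebraMap_iff_fixed (k := ℚ) (K := Qb) a).2 h

theorem algebraMap_rat_fixed (q : ℚ) (σ : GQ) : σ (algebraMap ℚ Qb q) = algebraMap ℚ Qb q :=
  σ.commutes q

section Prime

variable {ℓ : ℕ} (hℓ : ℓ.Prime) (hA : (ℓ : Qb) ∈ A.nonunits)

include hℓ hA

/-- **(W1)** `W ∩ ℚ = ℤ_(ℓ)`. -/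
theorem wRing_W1 (q : ℚ) :
    algebraMap ℚ Qb q ∈ wRing A ↔ q ∈ GaloisRep.ratLocalizedAt ℓ := by
  rw [Fermat.Agent.S28.mem_ratLocalizedAt_iff]
  have hLO : A.LiesOverPrime ℓ := hA
  have hden0 : (q.den : Qb) ≠ 0 := by exact_mod_cast q.den_nz
  have hq : algebraMap ℚ Qb q = (q.num : Qb) * ((q.den : Qb))⁻¹ := by
    conv_lhs => rw [← Rat.num_div_den q]
    rw [map_div₀, div_eq_mul_inv]
    simp
  constructor
  · rintro ⟨hqA, -⟩
    rw [Nat.coprime_comm, Nat.Prime.coprime_iff_not_dvd hℓ]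
    intro hdvd
    have h1 : (q.den : Qb) ∈ A.nonunits :=
      (Fermat.Agent.S05.natCast_mem_nonunits_iff hℓ hLO q.den).2 hdvd
    have h2 : (q.num : Qb) ∈ A.nonunits := by
      have h3 : (q.num : Qb) = (q.den : Qb) * algebraMap ℚ Qb q := by
        rw [hq]
        field_simp
      rw [h3]
      exact Fermat.Agent.S05.mul_mem_nonunits_of_mem h1 hqA
    have h4 : (ℓ : ℤ) ∣ q.num := (Fermat.Agent.S05.intCast_mem_nonunits_iff hℓ hLO q.num).1 h2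
    have h5 : ℓ ∣ q.num.natAbs := Int.natCast_dvd.mp h4
    have h6 : ℓ ∣ Nat.gcd q.num.natAbs q.den := Nat.dvd_gcd h5 hdvd
    rw [q.reduced] at h6
    exact hℓ.one_lt.ne' (Nat.dvd_one.mp h6)
  · intro hcop
    refine ⟨?_, fun σ _ => algebraMap_rat_fixed q σ⟩
    rw [hq]
    refine A.mul_mem _ _ (intCast_mem A _) ?_
    apply Fermat.Agent.S05.natCast_inv_mem_of_not_dvd hℓ hLO
    rw [← Nat.Prime.coprime_iff_not_dvd hℓ, Nat.coprime_comm]
    exact hcop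

/-- an `I_A`-fixed element of the maximal ideal of `A` is divisible by `ℓ` in `A`:
`ℓ` is a uniformiser of the inertia field. -/
theorem div_mem_of_fixed_of_mem_nonunits {x : Qb}
    (hfix : ∀ σ ∈ A.inertiaSubgroupIn ℚ, σ x = x) (hx : x ∈ A.nonunits) :
    x / (ℓ : Qb) ∈ A := by
  by_cases hx0 : x = 0
  · rw [hx0, zero_div]
    exact A.zero_mem
  have hℓ0 : (ℓ : Qb) ≠ 0 := by exact_mod_cast hℓ.ne_zero
  obtain ⟨n, hn⟩ := exists_valuation_eq_zpow_of_mem_inertiaField A hℓ hA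
    ((mem_inertiaField_iff A x).2 hfix) hx0
  have hv0 : A.valuation (ℓ : Qb) ≠ 0 := (Valuation.ne_zero_iff _).mpr hℓ0
  have hv1 : A.valuation (ℓ : Qb) < 1 := (A.mem_nonunits_iff).mp hA
  have hxlt : A.valuation x < 1 := (A.mem_nonunits_iff).mp hx
  -- `n ≥ 1`
  have hn1 : 1 ≤ n := by
    by_contra hlt
    push Not at hlt
    have hn0 : n ≤ 0 := by omega
    have h1 : (1 : A.ValueGroup) ≤ A.valuation (ℓ : Qb) ^ n := by
      have := (zpow_right_strictAnti₀ (zero_lt_iff.2 hv0) hv1).antitone hn0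
      simpa using this
    rw [← hn] at h1
    exact absurd hxlt (not_lt.mpr h1)
  rw [← A.valuation_le_one_iff, map_div₀, hn]
  rw [div_le_one₀ (zero_lt_iff.mpr hv0)]
  have := (zpow_right_strictAnti₀ (zero_lt_iff.2 hv0) hv1).antitone hn1
  simpa using this

omit hℓ hA in
theorem fixed_div_ell {x : Qb} (hfix : ∀ σ ∈ A.inertiaSubgroupIn ℚ, σ x = x) :
    ∀ σ ∈ A.inertiaSubgroupIn ℚ, σ (x / (ℓ : Qb)) = x / (ℓ : Qb) := by
  intro σ hσ
  rw [map_div₀, hfix σ hσ, map_natCast]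

/-- `W ∩ 𝔪_A = ℓ W`. -/
theorem div_mem_wRing_of_mem_nonunits {x : Qb} (hxW : x ∈ wRing A) (hx : x ∈ A.nonunits) :
    x / (ℓ : Qb) ∈ wRing A :=
  ⟨div_mem_of_fixed_of_mem_nonunits A hℓ hA hxW.2 hx, fixed_div_ell A hxW.2⟩

theorem mem_nonunits_iff_dvd {x : Qb} (hxW : x ∈ wRing A) :
    x ∈ A.nonunits ↔ ∃ u ∈ wRing A, x = (ℓ : Qb) * u := by
  have hℓ0 : (ℓ : Qb) ≠ 0 := by exact_mod_cast hℓ.ne_zero
  constructor
  · intro hx
    exact ⟨x / (ℓ : Qb), div_mem_wRing_of_mem_nonunits A hℓ hA hxW hx, by field_simp⟩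
  · rintro ⟨u, hu, rfl⟩
    exact Fermat.Agent.S05.mul_mem_nonunits_of_mem hA hu.1

/-- **(W2')** `ℚ̄^{I_A} = W[1/ℓ]`. -/
theorem wRing_W2' (a : Qb) (hfix : ∀ σ ∈ A.inertiaSubgroupIn ℚ, σ a = a) :
    ∃ c : ℕ, (ℓ : Qb) ^ c * a ∈ wRing A := by
  have hℓ0 : (ℓ : Qb) ≠ 0 := by exact_mod_cast hℓ.ne_zero
  by_cases ha0 : a = 0
  · exact ⟨0, by rw [ha0, mul_zero]; exact (wRing A).zero_mem⟩
  obtain ⟨n, h1, -⟩ := exists_zpow_unit_of_fixed A hℓ hA a ha0 hfix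
  refine ⟨n.natAbs, ?_, ?_⟩
  · -- `ℓ^|n| * a = ℓ^(|n| + n) * (a / ℓ^n)`
    have h2 : (ℓ : Qb) ^ n.natAbs * a = (ℓ : Qb) ^ (n.natAbs + n).toNat * (a / (ℓ : Qb) ^ n) := by
      have h3 : ((n.natAbs + n).toNat : ℤ) = n.natAbs + n := Int.toNat_of_nonneg (by omega)
      rw [← zpow_natCast (ℓ : Qb) (n.natAbs + n).toNat, h3, zpow_add₀ hℓ0, zpow_natCast]
      field_simp
    rw [h2]
    exact A.mul_mem _ _ (A.pow_mem (natCast_mem A ℓ) _) h1
  · intro σ hσ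
    rw [map_mul, map_pow, map_natCast, hfix σ hσ]

/-- **(W3)** an element of `W` not divisible by `ℓ` in `W` is a unit of `W`. -/
theorem wRing_W3 {w : Qb} (hw : w ∈ wRing A) (hnd : ¬ ∃ u ∈ wRing A, w = (ℓ : Qb) * u) :
    ∃ v ∈ wRing A, v * w = 1 := by
  have hnu : w ∉ A.nonunits := fun h => hnd ((mem_nonunits_iff_dvd A hℓ hA hw).1 h)
  have hw0 : w ≠ 0 := by
    rintro rfl
    exact hnu (by rw [A.mem_nonunits_iff, map_zero]; exact zero_lt_one)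
  have hv : A.valuation w = 1 := by
    apply le_antisymm ((A.valuation_le_one_iff _).2 hw.1)
    by_contra hlt
    exact hnu ((A.mem_nonunits_iff).2 (not_le.mp hlt))
  refine ⟨w⁻¹, ⟨?_, fun σ hσ => by rw [map_inv₀, hw.2 σ hσ]⟩, inv_mul_cancel₀ hw0⟩
  rw [← A.valuation_le_one_iff, map_inv₀, hv, inv_one]

omit hℓ hA in
/-- conjugating an element of the inertia group by an element of the decomposition group. -/
theorem conj_mem_inertia {τ i : GQ} (hτ : τ ∈ A.decompositionSubgroup ℚ)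
    (hi : i ∈ A.inertiaSubgroupIn ℚ) : τ⁻¹ * i * τ ∈ A.inertiaSubgroupIn ℚ := by
  rw [mem_inertiaSubgroupIn_iff_forall] at hi ⊢
  have hτi : τ⁻¹ ∈ A.decompositionSubgroup ℚ := inv_mem hτ
  have happ : ∀ x : Qb, (τ⁻¹ * i * τ) x = τ⁻¹ (i (τ x)) := fun _ => rfl
  refine ⟨fun x => ?_, fun x hx => ?_⟩
  · rw [happ, Fermat.Agent.GP.Flat.DvrInst.apply_mem_iff hτi, hi.1,
      Fermat.Agent.GP.Flat.DvrInst.apply_mem_iff hτ]
  · have h1 : (τ⁻¹ * i * τ) x - x = τ⁻¹ (i (τ x) - τ x) := by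
      rw [happ, map_sub]
      congr 1
      show x = τ⁻¹ (τ x)
      exact (τ.symm_apply_apply x).symm
    rw [h1, Fermat.Agent.GP.Flat.DvrInst.apply_mem_nonunits_iff hτi]
    exact hi.2 _ ((Fermat.Agent.GP.Flat.DvrInst.apply_mem_iff hτ x).2 hx)

omit hℓ hA in
/-- **(W4)** the decomposition group preserves `W`. -/
theorem wRing_W4 {σ : GQ} (hσ : σ ∈ A.decompositionSubgroup ℚ) {w : Qb} (hw : w ∈ wRing A) :
    σ w ∈ wRing A := by
  refine ⟨(Fermat.Agent.GP.Flat.DvrInst.apply_mem_iff hσ w).2 hw.1, fun i hi => ?_⟩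
  have h1 := hw.2 _ (conj_mem_inertia A hσ hi)
  have h2 : (σ⁻¹ * i * σ) w = σ⁻¹ (i (σ w)) := rfl
  rw [h2] at h1
  have h3 := congrArg σ h1
  rwa [show σ (σ⁻¹ (i (σ w))) = i (σ w) from σ.apply_symm_apply _] at h3

/-- **(W5)** `(W/ℓ)^{D_A} = 𝔽_ℓ`. -/
theorem wRing_W5 {w : Qb} (hw : w ∈ wRing A)
    (h : ∀ σ ∈ A.decompositionSubgroup ℚ, ∃ u ∈ wRing A, σ w - w = (ℓ : Qb) * u) :
    ∃ z : ℤ, ∃ u ∈ wRing A, w - (z : Qb) = (ℓ : Qb) * u := by
  have hLO : A.LiesOverPrime ℓ := hA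
  obtain ⟨φ, hφ⟩ := exists_isFrobeniusAt_of_liesOver A ℓ hℓ hA
  obtain ⟨u, hu, hu'⟩ := h φ hφ.mem_decompositionSubgroup
  have h1 : φ w - w ∈ A.nonunits := by
    rw [hu']
    exact Fermat.Agent.S05.mul_mem_nonunits_of_mem hA hu.1
  have h2 : φ w - w ^ ℓ ∈ A.nonunits :=
    Fermat.Agent.G35.Irr3.ResidueRat.frob_sub_pow_mem_nonunits hφ hw.1
  have h3 : w ^ ℓ - w ∈ A.nonunits := by
    have h4 : w ^ ℓ - w = (φ w - w) - (φ w - w ^ ℓ) := by ring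
    rw [h4, A.mem_nonunits_iff]
    exact lt_of_le_of_lt (Valuation.map_sub _ _ _)
      (max_lt ((A.mem_nonunits_iff).1 h1) ((A.mem_nonunits_iff).1 h2))
  obtain ⟨z, hz⟩ :=
    Fermat.Agent.G35.Irr3.ResidueRat.exists_int_sub_mem_nonunits_of_pow hℓ hLO hw.1 h3
  exact ⟨z, (mem_nonunits_iff_dvd A hℓ hA
    ((wRing A).sub_mem hw (intCast_mem_wRing A z))).1 hz⟩

/-- the ring homomorphism `A ∩ K₀ → W` from helper26's `baseRing A` (a valuation subring of the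
inertia field) to `W` (a subring of `ℚ̄`); it is bijective. -/
noncomputable def ofBaseRing : baseRing A →+* wRing A where
  toFun y := ⟨((y : inertiaField A) : Qb), y.2, (mem_inertiaField_iff A _).1 (y : inertiaField A).2⟩
  map_one' := rfl
  map_mul' _ _ := rfl
  map_zero' := rfl
  map_add' _ _ := rfl

omit hℓ hA in
theorem ofBaseRing_surjective : Function.Surjective (ofBaseRing A) := by
  rintro ⟨x, hxA, hxI⟩
  exact ⟨⟨⟨x, (mem_inertiaField_iff A x).2 hxI⟩, hxA⟩, rfl⟩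

/-- **`W` is a principal ideal domain** (it is a DVR with uniformiser `ℓ`; transport of helper26's
`isDiscreteValuationRing_baseRing`). -/
theorem isPrincipalIdealRing_wRing : IsPrincipalIdealRing (wRing A) := by
  have := isDiscreteValuationRing_baseRing A hℓ hA
  exact IsPrincipalIdealRing.of_surjective (ofBaseRing A) (ofBaseRing_surjective A)

theorem isNoetherianRing_wRing : IsNoetherianRing (wRing A) := by
  have := isPrincipalIdealRing_wRing A hℓ hA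
  infer_instance

end Prime

end Fermat.Agent.GH.N1Inst
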