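/-
GATE-S hedge / CELL-S DESIGN v1 (board 4918) node (NU), frame leaf (helper24): **the inertia frame
`(R, F, K, G) = (W, ℚ̄^{I_A}, ℚ̄, I_A)` of helper5's `GH/N0/Order.IsStableOrder`.**

`W = wRing A = A ∩ ℚ̄^{I_A}` (a PID with uniformiser `ℓ`, `WRing.lean`), `F = inertiaField A`
(helper26), `G = ↥(A.inertiaSubgroupIn ℚ)` acting on `ℚ̄`.  This file provides, as plain
definitions/theorems (NOT global instances — activate them with `letI`/`haveI`):

* `algebraWF`            : `Algebra (wRing A) (inertiaField A)`;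
* `isScalarTower_WFQb`   : `IsScalarTower W F ℚ̄`;
* `isFractionRing_WF`    : `IsFractionRing W F`   (`ℚ̄^{I_A} = W[1/ℓ]`);
* `fixed_inertia`        : the field `fixed` of `IsStableOrder` for `G = I_A`;
* `natCast_prime_wRing`  : `ℓ` is a prime element of `W`; `wRing_sep` : `⋂ ℓⁿW = 0`
  (the hypotheses `hp`, `hsep` of helper5's `GS/OrderP`);
* `dvd_of_mem_nonunits` : an element of `W` lying in `𝔪_A` is divisible by `ℓ` in `W`
  (the `hloc` hypothesis of `GS/OrderP` from "`𝔪_A`-valued generators");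
* `isStableOrder_W` : helper5's `IsStableOrder (inertiaField A) act H` for
  `H : Subalgebra (wRing A) (M → ℚ̄)`, `G = I_A`, from its five non-frame fields.
-/
import Mathlib
import Fermat.Agent.GH.N1Inst.WRing
import Fermat.Agent.GH.N0.Order

set_option autoImplicit false

open scoped Pointwise
open Fermat.Agent.Common_helper32 Fermat.Agent.GL.Local.InertiaField

namespace Fermat.Agent.GH.N1Inst

variable (A : ValuationSubring Qb)

/-- `W → ℚ̄^{I_A}`. -/
noncomputable def wToF : wRing A →+* inertiaField A where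
  toFun x := ⟨(x : Qb), (mem_inertiaField_iff A _).2 x.2.2⟩
  map_one' := rfl
  map_mul' _ _ := rfl
  map_zero' := rfl
  map_add' _ _ := rfl

@[simp] theorem coe_wToF (x : wRing A) : ((wToF A x : inertiaField A) : Qb) = (x : Qb) := rfl

/-- the algebra structure `W → ℚ̄^{I_A}` (not an instance). -/
@[reducible] noncomputable def algebraWF : Algebra (wRing A) (inertiaField A) := (wToF A).toAlgebra

theorem isScalarTower_WFQb :
    letI := algebraWF A
    IsScalarTower (wRing A) (inertiaField A) Qb := by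
  letI := algebraWF A
  refine IsScalarTower.of_algebraMap_eq fun x => ?_
  rfl

theorem wToF_injective : Function.Injective (wToF A) := by
  intro x y h
  apply Subtype.ext
  have := congrArg (fun z : inertiaField A => (z : Qb)) h
  simpa using this

/-- the field `fixed` of `IsStableOrder` for the inertia group. -/
theorem fixed_inertia (c : Qb) (h : ∀ σ : ↥(A.inertiaSubgroupIn ℚ), σ • c = c) :
    c ∈ (algebraMap (inertiaField A) Qb).range :=
  ⟨⟨c, (mem_inertiaField_iff A c).2 fun σ hσ => h ⟨σ, hσ⟩⟩, rfl⟩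

section Prime

variable {ℓ : ℕ} (hℓ : ℓ.Prime) (hA : (ℓ : Qb) ∈ A.nonunits)

include hℓ hA

/-- **`ℚ̄^{I_A} = Frac W`.** -/
theorem isFractionRing_WF :
    letI := algebraWF A
    IsFractionRing (wRing A) (inertiaField A) := by
  letI := algebraWF A
  have hℓ0 : (ℓ : Qb) ≠ 0 := by exact_mod_cast hℓ.ne_zero
  have : FaithfulSMul (wRing A) (inertiaField A) :=
    (faithfulSMul_iff_algebraMap_injective _ _).2 (wToF_injective A)
  refine IsFractionRing.of_field (wRing A) (inertiaField A) ?_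
  intro z
  obtain ⟨c, hc⟩ := wRing_W2' A hℓ hA (z : Qb) ((mem_inertiaField_iff A _).1 z.2)
  refine ⟨⟨(ℓ : Qb) ^ c * (z : Qb), hc⟩, ⟨(ℓ : Qb) ^ c, (wRing A).pow_mem (natCast_mem_wRing A ℓ) c⟩,
    ?_⟩
  apply Subtype.ext
  show (z : Qb) = ((ℓ : Qb) ^ c * (z : Qb)) / (ℓ : Qb) ^ c
  field_simp

omit hℓ in
/-- `ℓ` is not a unit of `W`. -/
theorem natCast_not_isUnit_wRing : ¬ IsUnit ((ℓ : ℕ) : wRing A) := by
  intro h
  obtain ⟨v, hv⟩ := h.exists_right_inv
  have h1 : (ℓ : Qb) * (v : Qb) = 1 := by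
    have := congrArg (fun z : wRing A => (z : Qb)) hv
    simpa using this
  have h2 : (ℓ : Qb) * (v : Qb) ∈ A.nonunits := Fermat.Agent.S05.mul_mem_nonunits_of_mem hA v.2.1
  rw [h1, A.mem_nonunits_iff, map_one] at h2
  exact lt_irrefl _ h2

/-- **`ℓ` is a prime element of `W`** (`W/ℓ` is a field by (W3)). -/
theorem natCast_prime_wRing : Prime ((ℓ : ℕ) : wRing A) := by
  have hℓ0 : (ℓ : Qb) ≠ 0 := by exact_mod_cast hℓ.ne_zero
  refine ⟨?_, natCast_not_isUnit_wRing A hA, ?_⟩
  · intro h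
    apply hℓ0
    have := congrArg (fun z : wRing A => (z : Qb)) h
    simpa using this
  · intro a b hab
    -- if `ℓ ∤ a` then `a` is a unit, so `ℓ ∣ b`
    by_cases ha : ∃ u ∈ wRing A, (a : Qb) = (ℓ : Qb) * u
    · left
      obtain ⟨u, hu, hau⟩ := ha
      exact ⟨⟨u, hu⟩, Subtype.ext (by simpa using hau)⟩
    · right
      obtain ⟨v, hv, hva⟩ := wRing_W3 A hℓ hA a.2 ha
      obtain ⟨c, hc⟩ := hab
      refine ⟨(⟨v, hv⟩ : wRing A) * c, ?_⟩
      apply Subtype.ext
      have hc' : (a : Qb) * (b : Qb) = (ℓ : Qb) * (c : Qb) := by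
        have := congrArg (fun z : wRing A => (z : Qb)) hc
        simpa using this
      have h3 : (b : Qb) = v * ((a : Qb) * (b : Qb)) := by
        rw [← mul_assoc, hva, one_mul]
      rw [h3, hc']
      push_cast
      ring

/-- `⋂ ℓⁿ W = 0`. -/
theorem wRing_sep (w : wRing A) (h : ∀ n : ℕ, (((ℓ : ℕ) : wRing A)) ^ n ∣ w) : w = 0 := by
  have := isNoetherianRing_wRing A hℓ hA
  have hπ := natCast_not_isUnit_wRing A hA
  have h1 : (⨅ i : ℕ, (Ideal.span {((ℓ : ℕ) : wRing A)}) ^ i) = ⊥ :=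
    Ideal.iInf_pow_eq_bot_of_isDomain _ (by
      rw [Ne, Ideal.span_singleton_eq_top]
      exact hπ)
  have h2 : w ∈ ⨅ i : ℕ, (Ideal.span {((ℓ : ℕ) : wRing A)}) ^ i := by
    rw [Ideal.mem_iInf]
    intro i
    rw [Ideal.span_singleton_pow, Ideal.mem_span_singleton]
    exact h i
  rw [h1] at h2
  exact h2

/-- an element of `W` lying in `𝔪_A` is divisible by `ℓ` in `W` (locality of orders generated by
`𝔪_A`-valued functions, in the shape of `GS/OrderP.hloc`). -/
theorem dvd_of_mem_nonunits (w : wRing A) (hw : (w : Qb) ∈ A.nonunits) :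
    ((ℓ : ℕ) : wRing A) ∣ w := by
  obtain ⟨u, hu, hwu⟩ := (mem_nonunits_iff_dvd A hℓ hA w.2).1 hw
  exact ⟨⟨u, hu⟩, Subtype.ext (by simpa using hwu)⟩

/-- **helper5's `IsStableOrder` in the inertia frame** `(W, ℚ̄^{I_A}, ℚ̄, I_A)`. -/
theorem isStableOrder_W {M : Type*} [AddCommGroup M] [Finite M]
    (act : ↥(A.inertiaSubgroupIn ℚ) → M → M) (H : Subalgebra (wRing A) (M → Qb))
    (hact0 : ∀ σ, act σ 0 = 0)
    (heq : ∀ f ∈ H, ∀ σ x, f (act σ x) = σ • f x)
    (hfg : Module.Finite (wRing A) H)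
    (hsep : ∀ x y : M, x ≠ y → ∃ f ∈ H, f x ≠ f y)
    (hΔ : ∀ f ∈ H, ∃ (n : ℕ) (a b : Fin n → H), ∀ x y,
      f (x + y) = ∑ i, (a i : M → Qb) x * (b i : M → Qb) y) :
    letI := algebraWF A
    haveI := isScalarTower_WFQb A
    haveI := isFractionRing_WF A hℓ hA
    haveI := isPrincipalIdealRing_wRing A hℓ hA
    Fermat.Agent.GH.N0.IsStableOrder (inertiaField A) act H := by
  letI := algebraWF A
  haveI := isScalarTower_WFQb A
  haveI := isFractionRing_WF A hℓ hA
  haveI := isPrincipalIdealRing_wRing A hℓ hA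
  exact ⟨fixed_inertia A, hact0, heq, hfg, hsep, hΔ⟩

end Prime

end Fermat.Agent.GH.N1Inst
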