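/-
GATE-H / S19 node N1-INST (helper24), part 5: **the descent node in the frozen frame.**

`exists_order_of_generators` : helper32's `core_asm` conclusion (a generator family `𝓖` of
`A`-valued, `I_A`-equivariant functions on a finite `G_ℚ`-module `M`, stable under `D_A`-conjugation,
separating, `Δ`-stable with coefficients in `A[𝓖]`) + finite level of the action ⟹ the binders
`heq / hfg / hsep / hΔ` of helper30's `flatShape_of_order` / `s19Shape_of_order`, for
`H := W[𝓖] ∩ Map_{G_ℚ}(M, ℚ̄)`, `W = A ∩ ℚ̄^{I_A}`.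

Proof: instantiate helper71's abstract `OrderHyp.exists_order_heq` (GH/N1/Descent) with
`K := ℚ̄`, `G := G_ℚ`, `W := wRing A` ((W1)–(W5) from `WRing.lean`), `HO := Algebra.adjoin W 𝓖`,
(SEP) from `Sep.lean`, the bound from the values (`boundHyp_of_values`, rank one), and the
comultiplication over `A' := A` through helper32's `tens`.
-/
import Mathlib
import Fermat.Agent.GH.N1.Descent
import Fermat.Agent.GH.Ord.Tens
import Fermat.Agent.GH.N1Inst.WRing
import Fermat.Agent.GH.N1Inst.Sep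
import Fermat.Agent.GJ.AuxL.RankOneA

set_option autoImplicit false

open scoped Pointwise
open Fermat.Agent.Common_helper32 Fermat.Agent.GH.N1

namespace Fermat.Agent.GH.N1Inst

section Main

variable {M : Type*} [AddCommGroup M]

/-- the `DistribMulAction` given by an action by additive maps. -/
@[reducible] def dmaOfAct (act : GQ → M →+ M) (hone : ∀ x, act 1 x = x)
    (hmul : ∀ σ τ x, act (σ * τ) x = act σ (act τ x)) : DistribMulAction GQ M where
  smul σ x := act σ x
  one_smul := hone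
  mul_smul := hmul
  smul_zero σ := map_zero (act σ)
  smul_add σ := map_add (act σ)

variable (A : ValuationSubring Qb) (𝓖 : Set (M → Qb))

/-- the `W`-order generated by `𝓖`. -/
noncomputable def orderW : Subring (M → Qb) := (Algebra.adjoin (wRing A) 𝓖).toSubring

omit [AddCommGroup M] in
theorem mem_orderW_iff (f : M → Qb) : f ∈ orderW A 𝓖 ↔ f ∈ Algebra.adjoin (wRing A) 𝓖 := Iff.rfl

omit [AddCommGroup M] in
theorem subset_orderW : 𝓖 ⊆ orderW A 𝓖 := Algebra.subset_adjoin

omit [AddCommGroup M] in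
/-- values of `W[𝓖]` lie in `A`. -/
theorem orderW_val (hval : ∀ f ∈ 𝓖, ∀ x, f x ∈ A) :
    ∀ f ∈ orderW A 𝓖, ∀ x, f x ∈ A := by
  intro f hf
  rw [mem_orderW_iff] at hf
  induction hf using Algebra.adjoin_induction with
  | mem f hf => exact hval f hf
  | algebraMap r => exact fun x => r.2.1
  | add f g _ _ hf hg => exact fun x => A.add_mem _ _ (hf x) (hg x)
  | mul f g _ _ hf hg => exact fun x => A.mul_mem _ _ (hf x) (hg x)

omit [AddCommGroup M] in
/-- `W[𝓖] ⊆ A[𝓖]`. -/
theorem orderW_le_adjoin : ∀ f ∈ orderW A 𝓖, f ∈ Algebra.adjoin A 𝓖 := by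
  intro f hf
  rw [mem_orderW_iff] at hf
  induction hf using Algebra.adjoin_induction with
  | mem f hf => exact Algebra.subset_adjoin hf
  | algebraMap r => exact (Algebra.adjoin A 𝓖).algebraMap_mem ⟨(r : Qb), r.2.1⟩
  | add f g _ _ hf hg => exact (Algebra.adjoin A 𝓖).add_mem hf hg
  | mul f g _ _ hf hg => exact (Algebra.adjoin A 𝓖).mul_mem hf hg

omit [AddCommGroup M] in
/-- the span of a subring of functions over a subring of scalars is closed under multiplication. -/
theorem span_mul_mem (A' : Subring Qb) (HO : Subring (M → Qb)) {f g : M → Qb}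
    (hf : f ∈ Submodule.span A' (HO : Set (M → Qb)))
    (hg : g ∈ Submodule.span A' (HO : Set (M → Qb))) :
    f * g ∈ Submodule.span A' (HO : Set (M → Qb)) := by
  induction hf using Submodule.span_induction with
  | mem f hf' =>
    induction hg using Submodule.span_induction with
    | mem g hg' => exact Submodule.subset_span (HO.mul_mem hf' hg')
    | zero => rw [mul_zero]; exact Submodule.zero_mem _
    | add g g' _ _ hg hg' => rw [mul_add]; exact Submodule.add_mem _ hg hg'
    | smul a g _ hg =>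
      rw [mul_smul_comm]
      exact Submodule.smul_mem _ _ hg
  | zero => rw [zero_mul]; exact Submodule.zero_mem _
  | add f f' _ _ hf hf' => rw [add_mul]; exact Submodule.add_mem _ hf hf'
  | smul a f _ hf =>
    rw [smul_mul_assoc]
    exact Submodule.smul_mem _ _ hf

omit [AddCommGroup M] in
/-- `A[𝓖]` is contained in the `A`-span of `W[𝓖]`. -/
theorem adjoin_le_span : ∀ f ∈ Algebra.adjoin A 𝓖,
    f ∈ Submodule.span A.toSubring (orderW A 𝓖 : Set (M → Qb)) := by
  intro f hf
  induction hf using Algebra.adjoin_induction with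
  | mem f hf => exact Submodule.subset_span (subset_orderW A 𝓖 hf)
  | algebraMap r =>
    have h1 : algebraMap A (M → Qb) r = (⟨(r : Qb), r.2⟩ : A.toSubring) • (1 : M → Qb) := by
      funext x
      simp [Pi.algebraMap_apply, Subring.smul_def]
    rw [h1]
    exact Submodule.smul_mem _ _ (Submodule.subset_span (orderW A 𝓖).one_mem)
  | add f g _ _ hf hg => exact Submodule.add_mem _ hf hg
  | mul f g _ _ hf hg => exact span_mul_mem _ _ hf hg

section Order

variable {ℓ : ℕ} [hℓ : Fact ℓ.Prime] [Finite M]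

/-- **N1-INST: the descent node in the frozen frame.**  Hypotheses = the conclusion of helper32's
`core_asm` (with `𝓖 := coreGens`, `act := actM`) + finite level; conclusion = the binders of
helper30's `flatShape_of_order` / `s19Shape_of_order`. -/
theorem exists_order_of_generators (act : GQ → M →+ M) (hone : ∀ x, act 1 x = x)
    (hmul : ∀ σ τ x, act (σ * τ) x = act σ (act τ x))
    (hlev : ∃ U : Subgroup GQ, IsOpen (U : Set GQ) ∧ ∀ σ ∈ U, ∀ x, act σ x = x)
    (hA : (ℓ : Qb) ∈ A.nonunits)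
    (hval : ∀ f ∈ 𝓖, ∀ x, f x ∈ A)
    (hI : ∀ f ∈ 𝓖, ∀ τ ∈ A.inertiaSubgroupIn ℚ, ∀ x, f (act τ x) = τ (f x))
    (hD : ∀ f ∈ 𝓖, ∀ σ ∈ A.decompositionSubgroup ℚ, (fun x => σ (f (act σ⁻¹ x))) ∈ 𝓖)
    (hsep : ∀ x y : M, x ≠ y → ∃ f ∈ 𝓖, f x ≠ f y)
    (hΔ : ∀ f ∈ 𝓖, ∃ (m : ℕ) (a b : Fin m → (M → Qb)),
      (∀ i, a i ∈ Algebra.adjoin A 𝓖) ∧ (∀ i, b i ∈ Algebra.adjoin A 𝓖) ∧
      ∀ x y, f (x + y) = ∑ i, a i x * b i y) :
    ∃ H : Subalgebra (GaloisRep.ratLocalizedAt ℓ) (M → Qb),
      (∀ f ∈ H, f ∈ Algebra.adjoin (wRing A) 𝓖) ∧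
      (∀ f ∈ H, ∀ (σ : GQ) (x : M), f (act σ x) = σ (f x)) ∧
      Module.Finite (GaloisRep.ratLocalizedAt ℓ) H ∧
      (∀ x y : M, x ≠ y → ∃ f ∈ H, f x ≠ f y) ∧
      ∀ f ∈ H, ∃ (n : ℕ) (a b : Fin n → H),
        ∀ x y, f (x + y) = ∑ i, (a i : M → Qb) x * (b i : M → Qb) y := by
  classical
  letI : DistribMulAction GQ M := dmaOfAct act hone hmul
  have hsmul : ∀ (σ : GQ) (x : M), σ • x = act σ x := fun _ _ => rfl
  have hℓp : ℓ.Prime := hℓ.out
  set I := A.inertiaSubgroupIn ℚ with hIdef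
  set D := A.decompositionSubgroup ℚ with hDdef
  -- `I`-equivariance of `W[𝓖]`
  have hH3 : ∀ f ∈ orderW A 𝓖, IsEquivar I f := by
    intro f hf
    rw [mem_orderW_iff] at hf
    induction hf using Algebra.adjoin_induction with
    | mem f hf => exact fun τ hτ x => hI f hf τ hτ x
    | algebraMap r =>
      intro τ hτ x
      exact (wRing_W2 A r.2 hτ).symm
    | add f g _ _ hf hg => exact hf.add hg
    | mul f g _ _ hf hg => exact hf.mul hg
  -- `D`-stability of `W[𝓖]`
  have hH4 : ∀ f ∈ orderW A 𝓖, ∀ σ ∈ D, conjFun σ f ∈ orderW A 𝓖 := by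
    intro f hf σ hσ
    rw [mem_orderW_iff] at hf ⊢
    induction hf using Algebra.adjoin_induction with
    | mem f hf => exact Algebra.subset_adjoin (hD f hf σ hσ)
    | algebraMap r =>
      have h1 : conjFun σ (algebraMap (wRing A) (M → Qb) r) =
          algebraMap (wRing A) (M → Qb) ⟨σ (r : Qb), wRing_W4 A hσ r.2⟩ := by
        funext x
        rfl
      rw [h1]
      exact Subalgebra.algebraMap_mem _ _
    | add f g _ _ hf hg =>
      have h1 : conjFun σ (f + g) = conjFun σ f + conjFun σ g := by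
        funext x
        simp only [conjFun, Pi.add_apply, smul_add]
      rw [h1]
      exact Subalgebra.add_mem _ hf hg
    | mul f g _ _ hf hg =>
      have h1 : conjFun σ (f * g) = conjFun σ f * conjFun σ g := by
        funext x
        simp only [conjFun, Pi.mul_apply, smul_mul']
      rw [h1]
      exact Subalgebra.mul_mem _ hf hg
  have hyp : OrderHyp (G := GQ) ℓ I D (wRing A) (orderW A 𝓖) :=
    { hfix := fun a h => hfix_Qb a h
      hW1 := fun q => wRing_W1 A hℓp hA q
      hW2 := fun a h => wRing_W2' A hℓp hA a h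
      hW3 := fun w hw hnd => wRing_W3 A hℓp hA hw hnd
      hW4 := fun σ hσ w hw => wRing_W4 A hσ hw
      hW5 := fun w hw h => wRing_W5 A hℓp hA hw h
      hH1 := by
        intro w hw f hf
        rw [mem_orderW_iff] at hf ⊢
        exact Subalgebra.smul_mem _ hf (⟨w, hw⟩ : wRing A)
      hH3 := hH3
      hH4 := hH4
      hH5 := fun x y hxy => by
        obtain ⟨f, hf, hfxy⟩ := hsep x y hxy
        exact ⟨f, subset_orderW A 𝓖 hf, hfxy⟩
      hSEP := fun x y hxy => by
        obtain ⟨f, hfe, hfxy⟩ := exists_equivariant_sep (fun σ => (act σ : M → M)) hone hmul hlev hxy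
        exact ⟨f, fun σ _ z => hfe σ z, hfxy⟩ }
  -- the bound, from the values
  have hAQ : ∀ q : ℚ, algebraMap ℚ Qb q ∈ A.toSubring → q ∈ GaloisRep.ratLocalizedAt ℓ := by
    intro q hq
    exact (wRing_W1 A hℓp hA q).1 ⟨hq, fun σ _ => algebraMap_rat_fixed q σ⟩
  have hpole : ∀ a : Qb, ∃ c : ℕ, (ℓ : Qb) ^ c * a ∈ A.toSubring := by
    intro a
    by_cases ha : a = 0
    · exact ⟨0, by rw [ha, mul_zero]; exact A.zero_mem⟩
    obtain ⟨n, hn⟩ := Fermat.Agent.GJ.AuxL.RankOneA.exists_pow_div_mem A hℓp hA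
      ((A.mem_nonunits_iff).1 hA) (inv_ne_zero ha)
    refine ⟨n, ?_⟩
    rw [div_inv_eq_mul] at hn
    exact hn
  have hb : BoundHyp GQ ℓ (orderW A 𝓖) :=
    hyp.boundHyp_of_values A.toSubring hAQ hpole
      (fun f hf _ x => orderW_val A 𝓖 hval f hf x)
  -- the comultiplication
  have hgen : ∀ f ∈ 𝓖, (fun p : M × M => f (p.1 + p.2)) ∈ tens (Algebra.adjoin A 𝓖) := by
    intro f hf
    obtain ⟨m, a, b, ha, hb', hab⟩ := hΔ f hf
    exact ⟨Fin m, inferInstance, a, b, ha, hb', fun x y => hab x y⟩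
  have hall := comp_add_mem_tens_of_generators (A := A) 𝓖 hgen
  have hΔ' : ∀ f ∈ orderW A 𝓖, IsEquivar (⊤ : Subgroup GQ) f →
      ∃ (m : ℕ) (a b : Fin m → M → Qb),
        (∀ i, a i ∈ Submodule.span A.toSubring (orderW A 𝓖 : Set (M → Qb))) ∧
        (∀ i, b i ∈ Submodule.span A.toSubring (orderW A 𝓖 : Set (M → Qb))) ∧
        ∀ x y, f (x + y) = ∑ i, a i x * b i y := by
    intro f hf _
    obtain ⟨m, a, b, ha, hb', hab⟩ :=
      exists_fin_of_mem_tens (hall f (orderW_le_adjoin A 𝓖 f hf))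
    exact ⟨m, a, b, fun i => adjoin_le_span A 𝓖 _ (ha i), fun i => adjoin_le_span A 𝓖 _ (hb' i),
      fun x y => hab x y⟩
  have hWA : wRing A ≤ A.toSubring := fun x hx => hx.1
  obtain ⟨H, hHO, hHeq, hHfin, hHsep, hHΔ⟩ := hyp.exists_order_heq hb A.toSubring hWA hAQ hΔ'
  exact ⟨H, fun f hf => hHO f hf, fun f hf σ x => hHeq f hf σ x, hHfin, hHsep, hHΔ⟩

end Order

end Main

end Fermat.Agent.GH.N1Inst
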