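/-
GATE-H / S19 node N1-INST (helper24), final file: **`N1Node ℓ`**, the closed Prop of helper32's
`GH/Top/Plug.s19_of_nodes` (board 4777), from `exists_order_of_generators` + `isDeltaOrder_of_hfg`.
-/
import Mathlib
import Fermat.Agent.GH.Top.Plug
import Fermat.Agent.GH.N1Inst.Main

set_option autoImplicit false

namespace Fermat.Agent.GH.N1Inst

/-- **node N1 of S19, binder-free.** -/
theorem n1Node (ℓ : ℕ) [Fact ℓ.Prime] : Fermat.Agent.GH.Top.N1Node ℓ := by
  intro M _ _ act hone hmul hlev A hA 𝓖 hval hI hD hsep hΔ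
  obtain ⟨H, -, heq, hfg, hsep', hΔ'⟩ :=
    exists_order_of_generators A 𝓖 act hone hmul hlev hA hval hI hD hsep hΔ
  exact Fermat.Agent.GH.Top.isDeltaOrder_of_hfg act H heq hfg hsep' hΔ'

end Fermat.Agent.GH.N1Inst
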