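/-
GATE-H / S19 node N1-INST (helper24), part 2: finite generation of lattices of equivariant
integral functions.  Mathlib-only, abstract.

`K` a field with an action of a group `Γ` (= the inertia group), `W ≤ Ao` subrings of `K`
(`Ao` = the valuation ring, `W = Ao ∩ K^Γ`), `π ∈ W` a `Γ`-fixed nonzero element such that every
`c : K` has some `π ^ n * c ∈ Ao` (rank one), `W` noetherian.  Then **every `W`-submodule `N` of
`M → K` (`M` finite) consisting of `Γ`-equivariant `Ao`-valued functions is finitely generated**
(`fg_of_equivariant_integral`).  In particular `Algebra.adjoin W 𝓖` is a finite `W`-module for any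
(possibly infinite) set `𝓖` of such functions.

Proof: pick `b ⊆ N` `K`-linearly independent with `N ⊆ span_K b`; the coefficient functionals are
`K`-linear combinations of evaluations (dual basis), so for some `n` the coefficients `c i` of every
`f ∈ N` satisfy `π ^ n * c i ∈ Ao`; they are `Γ`-fixed (uniqueness of coefficients), hence
`π ^ n • N ⊆ span_W b`, which is a noetherian `W`-module.
-/
import Mathlib

set_option autoImplicit false

namespace Fermat.Agent.GH.N1Inst

open Finset

section Fg

variable {K : Type*} [Field K] {Γ : Type*} [Group Γ] [MulSemiringAction Γ K]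
variable {M : Type*} [Finite M]

omit [Finite M] in
/-- coefficients of an equivariant function in an independent family of equivariant functions are
fixed. -/
theorem repr_fixed_of_equivariant (act : Γ → M → M) (hsurj : ∀ σ, Function.Surjective (act σ))
    {ι : Type*} {v : ι → M → K} (hli : LinearIndependent K v)
    (hv : ∀ i σ x, v i (act σ x) = σ • v i x)
    (f : Submodule.span K (Set.range v))
    (hf : ∀ σ x, (f : M → K) (act σ x) = σ • (f : M → K) x) (σ : Γ) (i : ι) :
    σ • hli.repr f i = hli.repr f i := by
  classical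
  set l := hli.repr f with hl
  -- the conjugated coefficient vector
  let l' : ι →₀ K := l.mapRange (fun c => σ • c) (smul_zero σ)
  have hl' : Finsupp.linearCombination K v l' = (f : M → K) := by
    funext y
    obtain ⟨x, rfl⟩ := hsurj σ y
    rw [hf σ x]
    have h1 : (f : M → K) = Finsupp.linearCombination K v l := (hli.linearCombination_repr f).symm
    rw [h1, Finsupp.linearCombination_apply, Finsupp.linearCombination_apply]
    rw [Finsupp.sum_mapRange_index (by intro i; simp)]
    simp only [Finsupp.sum, Finset.sum_apply, Pi.smul_apply, smul_eq_mul]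
    rw [Finset.smul_sum]
    refine Finset.sum_congr rfl fun i _ => ?_
    rw [smul_mul', hv]
  have h2 := hli.repr_eq hl'
  have h3 : l' i = l i := by rw [← h2]
  simpa [l'] using h3

variable (W Ao : Subring K)

/-- **finite generation.** -/
theorem fg_of_equivariant_integral [IsNoetherianRing W] (hWA : W ≤ Ao)
    (hWfix : ∀ a ∈ Ao, (∀ σ : Γ, σ • a = a) → a ∈ W)
    (π : K) (hπW : π ∈ W) (hπ0 : π ≠ 0) (hπfix : ∀ σ : Γ, σ • π = π)
    (harch : ∀ c : K, ∃ n : ℕ, π ^ n * c ∈ Ao)
    (act : Γ → M → M) (hsurj : ∀ σ, Function.Surjective (act σ))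
    (N : Submodule W (M → K))
    (hval : ∀ f ∈ N, ∀ x, f x ∈ Ao)
    (heq : ∀ f ∈ N, ∀ σ x, f (act σ x) = σ • f x) :
    N.FG := by
  classical
  have := Fintype.ofFinite M
  obtain ⟨b, hbN, hspan, hli⟩ := exists_linearIndependent K (N : Set (M → K))
  have hbfin : b.Finite := hli.setFinite
  have := hbfin.fintype
  -- index type `↥b`, family `Subtype.val`
  set v : b → M → K := Subtype.val with hv
  have hrange : Set.range v = b := Subtype.range_coe
  -- extension of the coefficient functionals to all of `M → K`
  obtain ⟨G, hG⟩ := LinearMap.exists_extend hli.repr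
  have hGf : ∀ f : Submodule.span K (Set.range v), G (f : M → K) = hli.repr f := by
    intro f
    have := congrArg (fun g => g f) hG
    simpa using this
  -- the dual coefficients
  let lam : b → M → K := fun i x => G (fun y => if x = y then 1 else 0) i
  have hcoef : ∀ (f : M → K) (i : b), G f i = ∑ x, f x * lam i x := by
    intro f i
    have h1 := LinearMap.pi_apply_eq_sum_univ G f
    rw [h1]
    simp only [Finsupp.coe_finsetSum, Finset.sum_apply, Finsupp.coe_smul, Pi.smul_apply,
      smul_eq_mul, lam]
  -- uniform bound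
  have hbound : ∃ n : ℕ, ∀ (i : b) (x : M), π ^ n * lam i x ∈ Ao := by
    choose n hn using fun p : b × M => harch (lam p.1 p.2)
    refine ⟨Finset.univ.sup n, fun i x => ?_⟩
    have hle : n (i, x) ≤ Finset.univ.sup n := Finset.le_sup (Finset.mem_univ _)
    obtain ⟨d, hd⟩ := Nat.exists_eq_add_of_le hle
    rw [hd, pow_add, mul_comm (π ^ n (i, x)), mul_assoc]
    exact Ao.mul_mem (Ao.pow_mem (hWA hπW) d) (hn (i, x))
  obtain ⟨n, hn⟩ := hbound
  -- every element of `N` lies in the `K`-span of `b`
  have hmemspan : ∀ f ∈ N, f ∈ Submodule.span K (Set.range v) := by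
    intro f hf
    rw [hrange, hspan]
    exact Submodule.subset_span hf
  -- the multiplication map
  let πW : W := ⟨π, hπW⟩
  let mulπ : (M → K) →ₗ[W] (M → K) := (πW ^ n) • LinearMap.id
  have hmulπ : ∀ f : M → K, mulπ f = fun x => π ^ n * f x := by
    intro f
    funext x
    show ((πW ^ n) • f) x = _
    rw [Pi.smul_apply]
    show ((πW ^ n : W) : K) * f x = _
    simp [πW]
  have hinj : Function.Injective mulπ := by
    intro f g hfg
    rw [hmulπ, hmulπ] at hfg
    funext x
    have := congrFun hfg x
    exact mul_left_cancel₀ (pow_ne_zero n hπ0) this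
  apply Submodule.fg_of_fg_map_injective mulπ hinj
  have hnoeth : IsNoetherian W (Submodule.span W b) := isNoetherian_span_of_finite W hbfin
  refine isNoetherian_submodule.mp hnoeth _ ?_
  rintro _ ⟨f, hfN, rfl⟩
  have hfN' : f ∈ N := hfN
  -- coefficients
  set fs : Submodule.span K (Set.range v) := ⟨f, hmemspan f hfN'⟩ with hfs
  set c := hli.repr fs with hc
  have hcfix : ∀ (i : b) (σ : Γ), σ • c i = c i := fun i σ =>
    repr_fixed_of_equivariant act hsurj hli (fun i σ x => heq _ (hbN i.2) σ x) fs
      (fun σ x => heq f hfN' σ x) σ i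
  have hcA : ∀ i : b, π ^ n * c i ∈ W := by
    intro i
    refine hWfix _ ?_ ?_
    · have h1 : c i = ∑ x, f x * lam i x := by
        rw [← hcoef f i, hc, ← hGf fs]
      rw [h1, Finset.mul_sum]
      refine Ao.sum_mem fun x _ => ?_
      have h2 : π ^ n * (f x * lam i x) = f x * (π ^ n * lam i x) := by ring
      rw [h2]
      exact Ao.mul_mem (hval f hfN' x) (hn i x)
    · intro σ
      rw [smul_mul', smul_pow', hπfix, hcfix]
  -- `π ^ n • f = ∑ (π ^ n * c i) • b i`
  have hsum : mulπ f = ∑ i : b, (⟨π ^ n * c i, hcA i⟩ : W) • (v i) := by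
    have h1 : f = Finsupp.linearCombination K v c := (hli.linearCombination_repr fs).symm
    rw [hmulπ]
    funext x
    rw [Finset.sum_apply]
    conv_lhs => rw [h1]
    rw [Finsupp.linearCombination_apply, Finsupp.sum_fintype _ _ (by intro i; simp)]
    rw [Finset.sum_apply, Finset.mul_sum]
    refine Finset.sum_congr rfl fun i _ => ?_
    rw [Pi.smul_apply, Pi.smul_apply]
    show π ^ n * (c i * v i x) = (π ^ n * c i) * v i x
    ring
  rw [hsum]
  refine Submodule.sum_mem _ fun i _ => ?_
  exact Submodule.smul_mem _ _ (Submodule.subset_span i.2)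

end Fg

end Fermat.Agent.GH.N1Inst
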