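/-
GATE-H / S19 node N1-INST (helper24), part 3: the **A → W step** (helper32 4598 R1, helper57 4506 (B)).
Abstract, Mathlib + helper5's `GH/N0/Descent`.

`K` a field with an action of a group `Γ` (= the inertia group), `W ≤ Ao` subrings of `K` with
`Ao ∩ K^Γ ⊆ W`, `K^Γ = W[1/π]`, `W` a principal ideal domain.  For a finitely generated
`W`-submodule `N` of `M → K` consisting of `Γ`-equivariant functions:

  **an equivariant element of the `Ao`-span of `N` lies in `N`**   (`mem_of_mem_span_of_equivariant`).

Proof: `N` is free over `W`; a `W`-basis is `K^Γ`-independent, hence `K`-independent by the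
stabiliser-free descent of independence; the `Ao`-coefficients of an equivariant element in this
basis are `Γ`-fixed, hence in `W`.
-/
import Mathlib
import Fermat.Agent.GH.N0.Descent
import Fermat.Agent.GH.N1Inst.Fg

set_option autoImplicit false

namespace Fermat.Agent.GH.N1Inst

open Finset

section AtoW

variable {K : Type*} [Field K] {Γ : Type*} [Group Γ] [MulSemiringAction Γ K]
variable {M : Type*}
variable (W Ao : Subring K)

/-- a `W`-linearly independent family of equivariant functions is `K`-linearly independent, when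
`K^Γ = W[1/π]`. -/
theorem linearIndependent_of_equivariant
    (π : K) (hπW : π ∈ W) (hπ0 : π ≠ 0)
    (hW2' : ∀ a : K, (∀ σ : Γ, σ • a = a) → ∃ n : ℕ, π ^ n * a ∈ W)
    (act : Γ → M → M) (hsurj : ∀ σ, Function.Surjective (act σ))
    {ι : Type*} [Fintype ι] (v : ι → M → K)
    (hv : ∀ i σ x, v i (act σ x) = σ • v i x)
    (hW : ∀ w : ι → W, (∑ i, w i • v i) = 0 → ∀ i, w i = 0) :
    LinearIndependent K v := by
  classical
  rw [linearIndependent_iff']
  intro s g hg
  refine Fermat.Agent.GH.N0.eq_zero_of_sum_mul_eq_zero act hsurj v hv ?_ s g ?_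
  · intro s c hc hrel
    -- coefficients extended by zero
    let c' : ι → K := fun i => if i ∈ s then c i else 0
    have hc' : ∀ i, ∀ σ : Γ, σ • c' i = c' i := by
      intro i σ
      by_cases hi : i ∈ s
      · simp only [c', hi, if_true]
        exact hc i hi σ
      · simp only [c', hi, if_false, smul_zero]
    choose n hn using fun i => hW2' (c' i) (hc' i)
    have hN : ∀ i, π ^ (Finset.univ.sup n) * c' i ∈ W := by
      intro i
      have hle : n i ≤ Finset.univ.sup n := Finset.le_sup (Finset.mem_univ _)
      obtain ⟨d, hd⟩ := Nat.exists_eq_add_of_le hle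
      rw [hd, pow_add, mul_comm (π ^ n i), mul_assoc]
      exact W.mul_mem (W.pow_mem hπW d) (hn i)
    have h0 := hW (fun i => ⟨π ^ (Finset.univ.sup n) * c' i, hN i⟩) (by
      funext x
      rw [Finset.sum_apply, Pi.zero_apply]
      have h1 : ∀ i, ((⟨π ^ (Finset.univ.sup n) * c' i, hN i⟩ : W) • v i) x =
          π ^ (Finset.univ.sup n) * (c' i * v i x) := by
        intro i
        rw [Pi.smul_apply]
        show (π ^ (Finset.univ.sup n) * c' i) * v i x = _
        ring
      simp_rw [h1]
      rw [← Finset.mul_sum]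
      have h2 : ∑ i, c' i * v i x = ∑ i ∈ s, c i * v i x := by
        rw [← Finset.sum_subset (Finset.subset_univ s)]
        · refine Finset.sum_congr rfl fun i hi => ?_
          simp only [c', hi, if_true]
        · intro i _ hi
          simp only [c', hi, if_false, zero_mul]
      rw [h2, hrel x, mul_zero])
    intro i hi
    have h3 := congrArg (fun w : W => (w : K)) (h0 i)
    simp only [ZeroMemClass.coe_zero] at h3
    have h4 : c' i = 0 := by
      rcases mul_eq_zero.mp h3 with h | h
      · exact absurd h (pow_ne_zero _ hπ0)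
      · exact h
    simpa [c', hi] using h4
  · intro x
    have := congrFun hg x
    simpa [Finset.sum_apply, Pi.smul_apply, smul_eq_mul] using this

/-- **the A → W step.** -/
theorem mem_of_mem_span_of_equivariant [IsPrincipalIdealRing W] (hWA : W ≤ Ao)
    (hWfix : ∀ a ∈ Ao, (∀ σ : Γ, σ • a = a) → a ∈ W)
    (π : K) (hπW : π ∈ W) (hπ0 : π ≠ 0)
    (hW2' : ∀ a : K, (∀ σ : Γ, σ • a = a) → ∃ n : ℕ, π ^ n * a ∈ W)
    (act : Γ → M → M) (hsurj : ∀ σ, Function.Surjective (act σ))
    (N : Submodule W (M → K)) (hfg : N.FG)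
    (heq : ∀ f ∈ N, ∀ σ x, f (act σ x) = σ • f x)
    (f : M → K) (hf : f ∈ Submodule.span Ao (N : Set (M → K)))
    (hfeq : ∀ σ x, f (act σ x) = σ • f x) : f ∈ N := by
  classical
  have : Module.Finite W N := Module.Finite.iff_fg.2 hfg
  have : Module.Free W N := Module.free_of_finite_type_torsion_free'
  let B := Module.Free.chooseBasis W N
  let v : Module.Free.ChooseBasisIndex W N → M → K := fun i => ((B i : N) : M → K)
  have hvN : ∀ i, v i ∈ N := fun i => (B i).2
  have hv : ∀ i σ x, v i (act σ x) = σ • v i x := fun i σ x => heq _ (hvN i) σ x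
  -- `K`-independence
  have hli : LinearIndependent K v := by
    apply linearIndependent_of_equivariant W π hπW hπ0 hW2' act hsurj v hv
    intro w hw
    have h1 : (∑ i, w i • B i : N) = 0 := by
      apply Subtype.ext
      rw [Submodule.coe_sum]
      simpa [v] using hw
    exact fun i => (Fintype.linearIndependent_iff.1 B.linearIndependent w h1 i)
  -- `Ao`-coefficients
  have hcoef : ∀ g ∈ Submodule.span Ao (N : Set (M → K)),
      ∃ a : Module.Free.ChooseBasisIndex W N → K, (∀ i, a i ∈ Ao) ∧ g = ∑ i, a i • v i := by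
    intro g hg
    induction hg using Submodule.span_induction with
    | mem g hg =>
      refine ⟨fun i => ((B.repr ⟨g, hg⟩ i : W) : K), fun i => hWA (B.repr ⟨g, hg⟩ i).2, ?_⟩
      have h1 := B.sum_repr ⟨g, hg⟩
      have h2 := congrArg (fun z : N => (z : M → K)) h1
      simp only [Submodule.coe_sum, Submodule.coe_smul] at h2
      exact h2.symm
    | zero => exact ⟨fun _ => 0, fun _ => Ao.zero_mem, by simp⟩
    | add g g' _ _ hg hg' =>
      obtain ⟨a, ha, rfl⟩ := hg
      obtain ⟨a', ha', rfl⟩ := hg'
      refine ⟨fun i => a i + a' i, fun i => Ao.add_mem (ha i) (ha' i), ?_⟩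
      rw [← Finset.sum_add_distrib]
      refine Finset.sum_congr rfl fun i _ => ?_
      rw [add_smul]
    | smul r g _ hg =>
      obtain ⟨a, ha, rfl⟩ := hg
      refine ⟨fun i => (r : K) * a i, fun i => Ao.mul_mem r.2 (ha i), ?_⟩
      rw [Finset.smul_sum]
      refine Finset.sum_congr rfl fun i _ => ?_
      rw [mul_smul]
      rfl
  obtain ⟨a, haA, hfa⟩ := hcoef f hf
  -- the coefficients are fixed
  have hfspan : f ∈ Submodule.span K (Set.range v) := by
    rw [hfa]
    exact Submodule.sum_mem _ fun i _ =>
      Submodule.smul_mem _ _ (Submodule.subset_span ⟨i, rfl⟩)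
  have hrepr : hli.repr ⟨f, hfspan⟩ = Finsupp.equivFunOnFinite.symm a := by
    apply hli.repr_eq
    rw [Finsupp.linearCombination_apply, Finsupp.sum_fintype _ _ (by intro i; simp)]
    simpa using hfa.symm
  have hafix : ∀ i (σ : Γ), σ • a i = a i := by
    intro i σ
    have := repr_fixed_of_equivariant act hsurj hli hv ⟨f, hfspan⟩ hfeq σ i
    rw [hrepr] at this
    simpa using this
  have haW : ∀ i, a i ∈ W := fun i => hWfix _ (haA i) (hafix i)
  rw [hfa]
  refine Submodule.sum_mem _ fun i _ => ?_
  exact N.smul_mem (⟨a i, haW i⟩ : W) (hvN i)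

end AtoW

end Fermat.Agent.GH.N1Inst
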