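/-
GATE-H / S19 node N1-INST (helper24), part 6: the `hN1` binder of helper32's
`GH/Top/Core.hasFinOrder_of_frame`, VERBATIM (with `R.A := A`), from `exists_order_of_generators`
+ finite level of `J₀(N)[m]` (helper18 `GH/TorsionLevel.exists_level_torsion`).
-/
import Mathlib
import Fermat.Agent.GH.Top.Core
import Fermat.Agent.GH.TorsionLevel
import Fermat.Agent.GH.N1Inst.Main

set_option autoImplicit false

noncomputable section

open AlgebraicCurve ModularCurve GaloisRep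
open Fermat.Agent.GH Fermat.Agent.GH.Top Fermat.Agent.GH.Closure

namespace Fermat.Agent.GH.N1Inst

local notation "Qb" => AlgebraicClosure ℚ
local notation "GQ" => (AlgebraicClosure ℚ ≃ₐ[ℚ] AlgebraicClosure ℚ)

variable (N : ℕ) [NeZero N] (m : ℤ)

/-- finite level of the Galois action on `torsSub N m`. -/
theorem hlev_torsSub (hm : m ≠ 0) :
    ∃ U : Subgroup GQ, IsOpen (U : Set GQ) ∧
      ∀ σ ∈ U, ∀ x : torsSub N m, actM (torsSub_stable N m) σ x = x := by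
  apply hlev_of_field
  have hm' : m.natAbs ≠ 0 := Int.natAbs_ne_zero.2 hm
  obtain ⟨E, hE, hfix⟩ := Fermat.Agent.GH.TorsionLevel.exists_level_torsion N m.natAbs hm'
  refine ⟨E, hE, fun σ hσ x => ?_⟩
  apply Subtype.ext
  have hx : m • (x : JZero N) = 0 := (Submodule.mem_torsionBy_iff _ _).1 x.2
  have hx' : (m.natAbs : ℤ) • (x : JZero N) = 0 := by
    rcases Int.natAbs_eq m with h | h
    · rw [← h]; exact hx
    · have : (m.natAbs : ℤ) = -m := by omega
      rw [this, neg_smul, hx, neg_zero]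
  exact hfix σ hσ (x : JZero N) hx'

variable {ℓ : ℕ} [Fact ℓ.Prime]

/-- **the `hN1` binder of `hasFinOrder_of_frame`.** -/
theorem hN1_torsSub (hm : m ≠ 0) [Finite (Tors N m)] (A : ValuationSubring Qb)
    (hA : (ℓ : Qb) ∈ A.nonunits) (𝓖 : Set (torsSub N m → Qb))
    (hval : ∀ f ∈ 𝓖, ∀ x, f x ∈ A)
    (hI : ∀ f ∈ 𝓖, ∀ τ ∈ A.inertiaSubgroupIn ℚ, ∀ x,
      f (actM (torsSub_stable N m) τ x) = τ (f x))
    (hD : ∀ f ∈ 𝓖, ∀ σ ∈ A.decompositionSubgroup ℚ,
      (fun x => σ (f (actM (torsSub_stable N m) σ⁻¹ x))) ∈ 𝓖)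
    (hsep : ∀ x y : torsSub N m, x ≠ y → ∃ f ∈ 𝓖, f x ≠ f y)
    (hΔ : ∀ f ∈ 𝓖, ∃ (r : ℕ) (a b : Fin r → (torsSub N m → Qb)),
      (∀ i, a i ∈ Algebra.adjoin A 𝓖) ∧ (∀ i, b i ∈ Algebra.adjoin A 𝓖) ∧
      ∀ x y, f (x + y) = ∑ i, a i x * b i y) :
    HasFinOrder ℓ (actM (torsSub_stable N m)) := by
  obtain ⟨H, -, heq, hfg, hsep', hΔ'⟩ :=
    exists_order_of_generators A 𝓖 (actM (torsSub_stable N m))
      (fun x => Subtype.ext (one_smul GQ (x : Pic0 Qb (modularFunctionFieldBar N))))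
      (fun σ τ x => Subtype.ext (mul_smul σ τ (x : Pic0 Qb (modularFunctionFieldBar N))))
      (hlev_torsSub N m hm) hA hval hI hD hsep hΔ
  exact isDeltaOrder_of_hfg _ H heq hfg hsep' hΔ'

end Fermat.Agent.GH.N1Inst
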