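/-
GATE-H / S19 node N1-INST (helper24), part 4: **(SEP)** of helper71's N1 DESCENT (board 4582) in the
frozen frame: for a `G_ℚ`-set `M` on which an open subgroup acts trivially (finite level),
`G_ℚ`-equivariant functions `M → ℚ̄` separate the points of `M`.  Mathlib + `Common_helper32` abbrevs.

* `exists_equivariant_sep` : `x ≠ y ⟹ ∃ f : M → ℚ̄, (∀ σ z, f (act σ z) = σ (f z)) ∧ f x ≠ f y`;
* `hlev_of_field` : the `TorsionLevel.exists_level_torsion` shape (a finite extension `E/ℚ` whose
  absolute Galois group acts trivially) gives the open-subgroup shape.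
-/
import Mathlib
import Fermat.Agent.Common_helper32.FrobeniusExists

set_option autoImplicit false

open Fermat.Agent.Common_helper32

namespace Fermat.Agent.GH.N1Inst

section Sep

variable {M : Type*} (act : GQ → M → M) (hone : ∀ x, act 1 x = x)
  (hmul : ∀ σ τ x, act (σ * τ) x = act σ (act τ x))

/-- the stabiliser of a point. -/
def stab (x : M) : Subgroup GQ where
  carrier := {σ | act σ x = x}
  mul_mem' := by
    intro σ τ hσ hτ
    show act (σ * τ) x = x
    rw [hmul, hτ, hσ]
  one_mem' := hone x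
  inv_mem' := by
    intro σ hσ
    show act σ⁻¹ x = x
    have h1 : act σ⁻¹ (act σ x) = x := by rw [← hmul, inv_mul_cancel, hone]
    rwa [hσ] at h1

include hone hmul in
theorem act_eq_iff (x : M) (σ σ' : GQ) :
    act σ x = act σ' x ↔ σ⁻¹ * σ' ∈ stab act hone hmul x := by
  show _ ↔ act (σ⁻¹ * σ') x = x
  constructor
  · intro h
    rw [hmul, ← h, ← hmul, inv_mul_cancel, hone]
  · intro h
    have h1 : act σ (act (σ⁻¹ * σ') x) = act σ' x := by
      rw [← hmul, mul_inv_cancel_left]
    rw [← h1, h]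

open Classical in
/-- the equivariant function supported on the orbit of `x` with value `α` at `x`. -/
noncomputable def orbitFun (x : M) (α : Qb) : M → Qb := fun z =>
  if h : ∃ σ : GQ, act σ x = z then (Classical.choose h) α else 0

include hone hmul in
theorem orbitFun_act (x : M) (α : Qb)
    (hα : ∀ σ ∈ stab act hone hmul x, σ α = α) (σ : GQ) :
    orbitFun act x α (act σ x) = σ α := by
  have h : ∃ σ' : GQ, act σ' x = act σ x := ⟨σ, rfl⟩
  rw [orbitFun, dif_pos h]
  have h1 := Classical.choose_spec h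
  have h2 := (act_eq_iff act hone hmul x _ _).1 h1.symm
  have h3 := hα _ h2
  have h4 : (σ⁻¹ * Classical.choose h) α = σ⁻¹ ((Classical.choose h) α) := rfl
  rw [h4] at h3
  have h5 := congrArg σ h3
  rwa [show σ (σ⁻¹ ((Classical.choose h) α)) = (Classical.choose h) α from
    σ.apply_symm_apply _] at h5

include hone hmul in
theorem orbitFun_equivariant (x : M) (α : Qb)
    (hα : ∀ σ ∈ stab act hone hmul x, σ α = α) (ρ : GQ) (z : M) :
    orbitFun act x α (act ρ z) = ρ (orbitFun act x α z) := by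
  by_cases h : ∃ σ : GQ, act σ x = z
  · obtain ⟨σ, rfl⟩ := h
    rw [← hmul, orbitFun_act act hone hmul x α hα, orbitFun_act act hone hmul x α hα]
    rfl
  · have h' : ¬ ∃ σ : GQ, act σ x = act ρ z := by
      rintro ⟨σ, hσ⟩
      apply h
      refine ⟨ρ⁻¹ * σ, ?_⟩
      rw [hmul, hσ, ← hmul, inv_mul_cancel, hone]
    rw [orbitFun, orbitFun, dif_neg h, dif_neg h', map_zero]

include hone hmul in
/-- **(SEP)**: equivariant functions separate points, at finite level. -/
theorem exists_equivariant_sep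
    (hlev : ∃ U : Subgroup GQ, IsOpen (U : Set GQ) ∧ ∀ σ ∈ U, ∀ x, act σ x = x)
    {x y : M} (hxy : x ≠ y) :
    ∃ f : M → Qb, (∀ σ z, f (act σ z) = σ (f z)) ∧ f x ≠ f y := by
  obtain ⟨U, hUo, hU⟩ := hlev
  set S := stab act hone hmul x with hS
  have hUS : U ≤ S := fun σ hσ => hU σ hσ x
  have hSo : IsOpen (S : Set GQ) := Subgroup.isOpen_mono hUS hUo
  have hSc : IsClosed (S : Set GQ) := Subgroup.isClosed_of_isOpen S hSo
  have hx1 : ∀ α : Qb, (∀ σ ∈ S, σ α = α) → orbitFun act x α x = α := by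
    intro α hα
    have := orbitFun_act act hone hmul x α hα 1
    rwa [hone] at this
  by_cases hy : ∃ τ : GQ, act τ x = y
  · obtain ⟨τ, rfl⟩ := hy
    have hτ : τ ∉ S := fun h => hxy (show act τ x = x from h).symm
    have hfix : (IntermediateField.fixedField S).fixingSubgroup = S :=
      InfiniteGalois.fixingSubgroup_fixedField ⟨S, hSc⟩
    rw [← hfix, IntermediateField.mem_fixingSubgroup_iff] at hτ
    push Not at hτ
    obtain ⟨α, hαS, hτα⟩ := hτ
    have hα : ∀ σ ∈ S, σ α = α := fun σ hσ => hαS ⟨σ, hσ⟩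
    refine ⟨orbitFun act x α, orbitFun_equivariant act hone hmul x α hα, ?_⟩
    rw [hx1 α hα, orbitFun_act act hone hmul x α hα]
    exact fun h => hτα h.symm
  · have hα : ∀ σ ∈ S, σ (1 : Qb) = 1 := fun σ _ => map_one σ
    refine ⟨orbitFun act x 1, orbitFun_equivariant act hone hmul x 1 hα, ?_⟩
    rw [hx1 1 hα, orbitFun, dif_neg hy]
    exact one_ne_zero

omit hone hmul in
/-- the finite-level hypothesis in the field shape of `GH/TorsionLevel.exists_level_torsion`. -/
theorem hlev_of_field
    (h : ∃ E : IntermediateField ℚ Qb, FiniteDimensional ℚ E ∧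
      ∀ σ : GQ, (∀ a ∈ E, σ a = a) → ∀ x, act σ x = x) :
    ∃ U : Subgroup GQ, IsOpen (U : Set GQ) ∧ ∀ σ ∈ U, ∀ x, act σ x = x := by
  obtain ⟨E, hE, hfix⟩ := h
  refine ⟨E.fixingSubgroup, IntermediateField.fixingSubgroup_isOpen E, fun σ hσ x => ?_⟩
  rw [IntermediateField.mem_fixingSubgroup_iff] at hσ
  exact hfix σ hσ x

end Sep

end Fermat.Agent.GH.N1Inst
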